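import Fermat.Agent.S27.Grp.Spec
import Fermat.Agent.S25.H371.SemilinearBC

/-!
# Row S27, block GRP, leaf ALG-RIG (helper723)

`tensRig : Grp.Stmt.TensRig k` and `tensRigCancel : Grp.Stmt.TensRigCancel k`.

Pure algebra: for a ring map `ρ : R → S`, an `R`-module `N` has a `ρ`-semilinear base
change map to `S` iff `S ⊗[R] N ≃ S`; the latter property is stable under tensor products
and can be cancelled.
-/

set_option autoImplicit false
set_option linter.style.haveILetI false
universe u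
open scoped TensorProduct

namespace Fermat.Agent.S27.H723

open Fermat.Agent.S25 Fermat.Agent.S27

noncomputable section

section General

variable {R S : Type u} [CommRing R] [CommRing S] [Algebra R S]
variable {M N P : Type u} [AddCommGroup M] [Module R M] [AddCommGroup N] [Module R N]
  [AddCommGroup P] [Module R P]

/-- Base change to `S` of a tensor product of two modules trivialised by `S`. -/
theorem trivTensor (β : M →ₗ[R] N →ₗ[R] P)
    (hβ : Function.Bijective (TensorProduct.lift β))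
    (hM : Nonempty (S ⊗[R] M ≃ₗ[S] S)) (hN : Nonempty (S ⊗[R] N ≃ₗ[S] S)) :
    Nonempty (S ⊗[R] P ≃ₗ[S] S) := by
  obtain ⟨eM⟩ := hM
  obtain ⟨eN⟩ := hN
  let e : M ⊗[R] N ≃ₗ[R] P := LinearEquiv.ofBijective (TensorProduct.lift β) hβ
  exact ⟨(TensorProduct.AlgebraTensorModule.congr (LinearEquiv.refl S S) e).symm ≪≫ₗ
    TensorProduct.AlgebraTensorModule.distribBaseChange R S M N ≪≫ₗ
    TensorProduct.congr eM eN ≪≫ₗ TensorProduct.lid S S⟩

/-- Cancellation. -/
theorem trivCancel (β : M →ₗ[R] N →ₗ[R] P)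
    (hβ : Function.Bijective (TensorProduct.lift β))
    (hN : Nonempty (S ⊗[R] N ≃ₗ[S] S)) (hP : Nonempty (S ⊗[R] P ≃ₗ[S] S)) :
    Nonempty (S ⊗[R] M ≃ₗ[S] S) := by
  obtain ⟨eN⟩ := hN
  obtain ⟨eP⟩ := hP
  let e : M ⊗[R] N ≃ₗ[R] P := LinearEquiv.ofBijective (TensorProduct.lift β) hβ
  exact ⟨(TensorProduct.rid S (S ⊗[R] M)).symm ≪≫ₗ
    TensorProduct.congr (LinearEquiv.refl S (S ⊗[R] M)) eN.symm ≪≫ₗ
    (TensorProduct.AlgebraTensorModule.distribBaseChange R S M N).symm ≪≫ₗ
    TensorProduct.AlgebraTensorModule.congr (LinearEquiv.refl S S) e ≪≫ₗ eP⟩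

end General

section Semi

variable {R S : Type u} [CommRing R] [CommRing S]

/-- A semilinear base change map to `S` trivialises the base change. -/
theorem triv_of_semilinear (ρ : R →+* S) {N : Type u} [AddCommGroup N] [Module R N]
    (b : N →ₛₗ[ρ] S) (hb : IsSemilinearBaseChange ρ b) :
    letI : Algebra R S := ρ.toAlgebra
    Nonempty (S ⊗[R] N ≃ₗ[S] S) := by
  letI : Algebra R S := ρ.toAlgebra
  let f : N →ₗ[R] S :=
    { toFun := fun n => b n
      map_add' := fun m n => b.map_add m n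
      map_smul' := fun r n => by
        rw [LinearMap.map_smulₛₗ b r n]
        rfl }
  have hf : IsBaseChange S f :=
    H371.isBaseChange_of_isSemilinearBaseChange ρ (fun _ => rfl) b hb f (fun _ => rfl)
  exact ⟨hf.equiv⟩

/-- A trivialisation of the base change gives a semilinear base change map to `S`. -/
theorem semilinear_of_triv (ρ : R →+* S) {N : Type u} [AddCommGroup N] [Module R N]
    (h : letI : Algebra R S := ρ.toAlgebra
      Nonempty (S ⊗[R] N ≃ₗ[S] S)) :
    ∃ b : N →ₛₗ[ρ] S, IsSemilinearBaseChange ρ b := by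
  letI : Algebra R S := ρ.toAlgebra
  obtain ⟨E⟩ := h
  let f : N →ₗ[R] S := (E.toLinearMap.restrictScalars R).comp (TensorProduct.mk R S N 1)
  have hf : IsBaseChange S f := IsBaseChange.of_equiv E (fun x => rfl)
  exact ⟨H371.toSemilinear (S := S) f, H371.isSemilinearBaseChange_toSemilinear f hf⟩

/-- Tensor products of modules with a semilinear base change map to `S`. -/
theorem semilinear_tensor (ρ : R →+* S) {M N P : Type u} [AddCommGroup M] [Module R M]
    [AddCommGroup N] [Module R N] [AddCommGroup P] [Module R P]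
    (β : M →ₗ[R] N →ₗ[R] P) (hβ : Function.Bijective (TensorProduct.lift β))
    (hM : ∃ b : M →ₛₗ[ρ] S, IsSemilinearBaseChange ρ b)
    (hN : ∃ b : N →ₛₗ[ρ] S, IsSemilinearBaseChange ρ b) :
    ∃ b : P →ₛₗ[ρ] S, IsSemilinearBaseChange ρ b := by
  obtain ⟨b, hb⟩ := hM
  obtain ⟨b', hb'⟩ := hN
  have h1 := triv_of_semilinear ρ b hb
  have h2 := triv_of_semilinear ρ b' hb'
  letI : Algebra R S := ρ.toAlgebra
  exact semilinear_of_triv ρ (trivTensor β hβ h1 h2)

/-- Cancellation for modules with a semilinear base change map to `S`. -/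
theorem semilinear_cancel (ρ : R →+* S) {M N P : Type u} [AddCommGroup M] [Module R M]
    [AddCommGroup N] [Module R N] [AddCommGroup P] [Module R P]
    (β : M →ₗ[R] N →ₗ[R] P) (hβ : Function.Bijective (TensorProduct.lift β))
    (hN : ∃ b : N →ₛₗ[ρ] S, IsSemilinearBaseChange ρ b)
    (hP : ∃ b : P →ₛₗ[ρ] S, IsSemilinearBaseChange ρ b) :
    ∃ b : M →ₛₗ[ρ] S, IsSemilinearBaseChange ρ b := by
  obtain ⟨b', hb'⟩ := hN
  obtain ⟨b'', hb''⟩ := hP
  have h2 := triv_of_semilinear ρ b' hb'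
  have h3 := triv_of_semilinear ρ b'' hb''
  letI : Algebra R S := ρ.toAlgebra
  exact semilinear_of_triv ρ (trivCancel β hβ h2 h3)

end Semi

/-- **TENS-RIG**. -/
theorem tensRig (k : Type u) [Field k] : Grp.Stmt.TensRig k := by
  intro B₀ B₁ B₀₁ _ _ _ _ _ _ _ _ _ _ e A _ _ G G' G'' ht hG hG'
  obtain ⟨t⟩ := ht
  exact semilinear_tensor _ t.β₁ t.bijective₁ hG hG'

/-- **TENS-RIG-CANCEL**. -/
theorem tensRigCancel (k : Type u) [Field k] : Grp.Stmt.TensRigCancel k := by
  intro B₀ B₁ B₀₁ _ _ _ _ _ _ _ _ _ _ e A _ _ G G' G'' ht hG' hG''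
  obtain ⟨t⟩ := ht
  exact semilinear_cancel _ t.β₁ t.bijective₁ hG' hG''

end

end Fermat.Agent.S27.H723
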